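import Fermat.Agent.Kloosterman.Boxes
import Mathlib.Data.Nat.Periodic

/-!
# Boxes of any size

A full period of `v` holds exactly one solution of `u v = c` for each `u` prime to `p`, whatever
`c ≠ 0`; so by Weil's bound the count of a box depends on `c` only up to `8 √p (1 + log p) ^ 2`.
-/

set_option autoImplicit false

noncomputable section

namespace FA.DivisorLevel

open Finset

variable {p : ℕ} [Fact p.Prime]

/-- The solutions of `u v = c` in `I × J`. -/
def pairCount (c : ZMod p) (I J : Finset ℕ) : ℕ :=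
  ((I ×ˢ J).filter fun x : ℕ × ℕ => ((x.1 * x.2 : ℕ) : ZMod p) = c).card

/-- The error of a box. -/
def boxErr (p : ℕ) : ℝ := 8 * Real.sqrt p * (1 + Real.log p) ^ 2

theorem boxErr_nonneg (p : ℕ) : 0 ≤ boxErr p := by
  unfold boxErr
  positivity

theorem pairCount_comm (c : ZMod p) (I J : Finset ℕ) : pairCount c I J = pairCount c J I :=
  card_nbij' Prod.swap Prod.swap
    (fun x hx => by
      simp only [mem_coe, mem_filter, mem_product, Prod.fst_swap, Prod.snd_swap] at hx ⊢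
      exact ⟨⟨hx.1.2, hx.1.1⟩, by rw [mul_comm]; exact hx.2⟩)
    (fun x hx => by
      simp only [mem_coe, mem_filter, mem_product, Prod.fst_swap, Prod.snd_swap] at hx ⊢
      exact ⟨⟨hx.1.2, hx.1.1⟩, by rw [mul_comm]; exact hx.2⟩)
    (fun x _ => rfl) fun x _ => rfl

theorem pairCount_eq_sum (c : ZMod p) (I J : Finset ℕ) :
    pairCount c I J = ∑ u ∈ I, (J.filter fun v : ℕ => (u : ZMod p) * (v : ZMod p) = c).card := by
  rw [pairCount, card_filter, sum_product]
  exact sum_congr rfl fun u _ => by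
    rw [card_filter]
    exact sum_congr rfl fun v _ => by simp only [Nat.cast_mul]

theorem card_period {c : ZMod p} (hc : c ≠ 0) (u B : ℕ) :
    ((Ico B (B + p)).filter fun v : ℕ => (u : ZMod p) * (v : ZMod p) = c).card =
      if (u : ZMod p) = 0 then 0 else 1 := by
  split_ifs with hu
  · rw [card_eq_zero, filter_eq_empty_iff]
    exact fun v _ h => hc (by rw [← h, hu, zero_mul])
  · rw [Nat.filter_Ico_card_eq_of_periodic B p _ (fun v => by
      simp only [Nat.cast_add, ZMod.natCast_self, add_zero]),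
      Nat.count_eq_card_filter_range, card_eq_one]
    refine ⟨((u : ZMod p)⁻¹ * c).val, Finset.ext fun v => ?_⟩
    rw [mem_filter, mem_range, mem_singleton]
    constructor
    · rintro ⟨hv, h⟩
      rw [← h, inv_mul_cancel_left₀ hu, ZMod.val_natCast, Nat.mod_eq_of_lt hv]
    · rintro rfl
      exact ⟨ZMod.val_lt _, by rw [ZMod.natCast_zmod_val, mul_inv_cancel_left₀ hu]⟩

theorem pairCount_split {c : ZMod p} (hc : c ≠ 0) (I : Finset ℕ) (B q r : ℕ) :
    pairCount c I (Ico B (B + q * p + r)) =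
      q * (I.filter fun u : ℕ => (u : ZMod p) ≠ 0).card +
        pairCount c I (Ico (B + q * p) (B + q * p + r)) := by
  rw [pairCount_eq_sum, pairCount_eq_sum, card_filter, mul_sum, ← sum_add_distrib]
  refine sum_congr rfl fun u _ => ?_
  rw [← Ico_union_Ico_eq_Ico (Nat.le_add_right B (q * p)) (Nat.le_add_right _ r), filter_union,
    card_union_of_disjoint (disjoint_filter_filter (Ico_disjoint_Ico_consecutive B _ _))]
  congr 1
  induction q with
  | zero => simp
  | succ q ih =>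
    rw [show B + (q + 1) * p = B + q * p + p by ring,
      ← Ico_union_Ico_eq_Ico (Nat.le_add_right B (q * p)) (Nat.le_add_right _ p), filter_union,
      card_union_of_disjoint (disjoint_filter_filter (Ico_disjoint_Ico_consecutive B _ _)), ih,
      card_period hc]
    split_ifs <;> simp_all

theorem pairCount_eq_boxCount (c : ZMod p) (A B r s : ℕ) :
    pairCount c (Ico A (A + r)) (Ico B (B + s)) = FA.Kloosterman.boxCount c A B r s :=
  card_nbij' (fun x => (x.1 - A, x.2 - B)) (fun x => (A + x.1, B + x.2))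
    (fun x hx => by
      simp only [mem_coe, mem_filter, mem_product, mem_Ico, mem_range] at hx ⊢
      refine ⟨⟨by omega, by omega⟩, ?_⟩
      rw [← hx.2, show ((A : ℤ) + ((x.1 - A : ℕ) : ℤ)) * ((B : ℤ) + ((x.2 - B : ℕ) : ℤ)) =
        ((x.1 * x.2 : ℕ) : ℤ) by push_cast [hx.1.1.1, hx.1.2.1]; ring, Int.cast_natCast])
    (fun x hx => by
      simp only [mem_coe, mem_filter, mem_product, mem_Ico, mem_range] at hx ⊢
      refine ⟨⟨by omega, by omega⟩, ?_⟩
      rw [← hx.2]
      push_cast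
      rfl)
    (fun x hx => by
      simp only [mem_coe, mem_filter, mem_product, mem_Ico] at hx
      exact Prod.ext (Nat.add_sub_cancel' hx.1.1.1) (Nat.add_sub_cancel' hx.1.2.1))
    fun x _ => Prod.ext (Nat.add_sub_cancel_left A x.1) (Nat.add_sub_cancel_left B x.2)

/-- **A box hardly depends on `c`.** -/
theorem abs_pairCount_sub_le (hp : p ≠ 2) {c c' : ZMod p} (hc : c ≠ 0) (hc' : c' ≠ 0)
    (A N₁ B N₂ : ℕ) :
    |(pairCount c (Ico A (A + N₁)) (Ico B (B + N₂)) : ℝ) -
      pairCount c' (Ico A (A + N₁)) (Ico B (B + N₂))| ≤ boxErr p := by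
  have hp0 : 0 < p := (Fact.out : p.Prime).pos
  obtain ⟨q₂, r₂, h₂, hr₂⟩ : ∃ q r, N₂ = q * p + r ∧ r < p :=
    ⟨N₂ / p, N₂ % p, (Nat.div_add_mod' N₂ p).symm, Nat.mod_lt _ hp0⟩
  obtain ⟨q₁, r₁, h₁, hr₁⟩ : ∃ q r, N₁ = q * p + r ∧ r < p :=
    ⟨N₁ / p, N₁ % p, (Nat.div_add_mod' N₁ p).symm, Nat.mod_lt _ hp0⟩
  have e : ∀ d : ZMod p, d ≠ 0 → pairCount d (Ico A (A + N₁)) (Ico B (B + N₂)) =
      q₂ * ((Ico A (A + N₁)).filter fun u : ℕ => (u : ZMod p) ≠ 0).card +
        (q₁ * ((Ico (B + q₂ * p) (B + q₂ * p + r₂)).filter fun u : ℕ => (u : ZMod p) ≠ 0).card +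
          FA.Kloosterman.boxCount d (B + q₂ * p : ℕ) (A + q₁ * p : ℕ) r₂ r₁) := fun d hd => by
    rw [h₂, ← add_assoc, pairCount_split hd, pairCount_comm, h₁, ← add_assoc A,
      pairCount_split hd, ← pairCount_eq_boxCount]
  rw [e c hc, e c' hc']
  push_cast
  rw [add_sub_add_left_eq_sub, add_sub_add_left_eq_sub]
  have h := FA.Kloosterman.abs_boxCount_sub_le hp hc (((B + q₂ * p : ℕ) : ℤ))
    (((A + q₁ * p : ℕ) : ℤ)) hr₂.le hr₁.le
  have h' := FA.Kloosterman.abs_boxCount_sub_le hp hc' (((B + q₂ * p : ℕ) : ℤ))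
    (((A + q₁ * p : ℕ) : ℤ)) hr₂.le hr₁.le
  rw [boxErr]
  rw [abs_le] at h h' ⊢
  push_cast at h h'
  constructor <;> linarith

/-- **So a box holds at most its share.** -/
theorem pairCount_le (hp : p ≠ 2) {c : ZMod p} (hc : c ≠ 0) (A N₁ B N₂ : ℕ) :
    (pairCount c (Ico A (A + N₁)) (Ico B (B + N₂)) : ℝ) ≤
      (N₁ : ℝ) * N₂ / ((p : ℝ) - 1) + boxErr p := by
  obtain ⟨S, hS⟩ : ∃ S : Finset (ZMod p), S = univ.erase 0 := ⟨_, rfl⟩
  have hSc : (S.card : ℝ) = (p : ℝ) - 1 := by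
    rw [hS, card_erase_of_mem (mem_univ _), card_univ, ZMod.card,
      Nat.cast_sub (Fact.out : p.Prime).one_le, Nat.cast_one]
  have hp1 : (0 : ℝ) < (p : ℝ) - 1 := by
    have : (2 : ℝ) ≤ p := by exact_mod_cast (Fact.out : p.Prime).two_le
    linarith
  have hsum : ∑ d ∈ S, (pairCount d (Ico A (A + N₁)) (Ico B (B + N₂)) : ℝ) ≤ (N₁ : ℝ) * N₂ := by
    rw [← Nat.cast_sum, ← Nat.cast_mul, Nat.cast_le]
    refine (sum_le_sum_of_subset (subset_univ S)).trans (le_of_eq ?_)
    simp only [pairCount]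
    rw [← card_eq_sum_card_fiberwise (f := fun x : ℕ × ℕ => ((x.1 * x.2 : ℕ) : ZMod p))
        fun x _ => mem_coe.2 (mem_univ _), card_product, Nat.card_Ico, Nat.card_Ico,
      Nat.add_sub_cancel_left, Nat.add_sub_cancel_left]
  have h : ((p : ℝ) - 1) * ((pairCount c (Ico A (A + N₁)) (Ico B (B + N₂)) : ℝ) - boxErr p) ≤
      (N₁ : ℝ) * N₂ := by
    rw [← hSc, ← nsmul_eq_mul]
    refine (card_nsmul_le_sum _ _ _ fun d hd => ?_).trans hsum
    have := (abs_le.1 (abs_pairCount_sub_le hp hc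
      (ne_of_mem_erase (hS ▸ hd : d ∈ univ.erase 0)) A N₁ B N₂)).2
    linarith
  rw [← sub_le_iff_le_add, le_div_iff₀ hp1, mul_comm]
  exact h

end FA.DivisorLevel

end
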