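import Fermat.Agent.DivisorLevel.Boxes

/-!
# The hyperbola covered by boxes

`u ≤ √x` is cut into intervals of ratio `1 + 1/M`; over each the hyperbola lies between two boxes
differing by an area at most `4 x / M ^ 2`. So the count of `u v ≤ x`, `u v = c` depends on `c ≠ 0`
only up to `(√x p ^ (-1/4) + √p) (log) ^ 3`.
-/

set_option autoImplicit false

noncomputable section

namespace FA.DivisorLevel

open Finset

/-- The cuts: `g (k + 1) = g k + ⌊g k / M⌋ + 1`, stopped at `s + 1`. -/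
def cut (M s : ℕ) : ℕ → ℕ
  | 0 => 1
  | k + 1 => min (cut M s k + cut M s k / M + 1) (s + 1)

theorem cut_le (M s : ℕ) : ∀ k, cut M s k ≤ s + 1
  | 0 => by simp [cut]
  | k + 1 => min_le_right _ _

theorem cut_le_succ (M s k : ℕ) : cut M s k ≤ cut M s (k + 1) := by
  rw [cut]
  exact le_min ((Nat.le_add_right _ _).trans (Nat.le_add_right _ _)) (cut_le M s k)

theorem one_le_cut (M s : ℕ) : ∀ k, 1 ≤ cut M s k
  | 0 => le_rfl
  | k + 1 => (one_le_cut M s k).trans (cut_le_succ M s k)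

theorem cut_growth {M : ℕ} (hM : 0 < M) (s k j : ℕ) :
    min (M * cut M s k + j * cut M s k) (M * (s + 1)) ≤ M * cut M s (k + j) := by
  induction j with
  | zero =>
    simp only [zero_mul, add_zero]
    exact min_le_left _ _
  | succ j ih =>
    rcases le_total (cut M s (k + j) + cut M s (k + j) / M + 1) (s + 1) with h | h
    · rw [← add_assoc, cut, min_eq_left h]
      have h1 : cut M s (k + j) ≤ M * (cut M s (k + j) / M + 1) := by
        have := Nat.lt_div_mul_add (a := cut M s (k + j)) hM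
        rw [mul_add, mul_one, mul_comm]
        omega
      have h2 : cut M s k ≤ cut M s (k + j) :=
        monotone_nat_of_le_succ (cut_le_succ M s) (Nat.le_add_right k j)
      rw [add_assoc (cut M s (k + j)), mul_add, add_mul, one_mul, ← add_assoc]
      rcases le_total (M * cut M s k + j * cut M s k) (M * (s + 1)) with h3 | h3
      · rw [min_eq_left h3] at ih
        exact (min_le_left _ _).trans (by linarith)
      · rw [min_eq_right h3] at ih
        exact (min_le_right _ _).trans (by linarith)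
    · rw [← add_assoc, cut, min_eq_right h]
      exact min_le_right _ _

theorem min_two_pow_le_cut {M : ℕ} (hM : 0 < M) (s : ℕ) :
    ∀ i : ℕ, min (2 ^ i) (s + 1) ≤ cut M s (M * i)
  | 0 => by simp [cut]
  | i + 1 => by
    have ih := min_two_pow_le_cut hM s i
    have h := cut_growth hM s (M * i) M
    rw [← two_mul, ← mul_assoc 2, mul_comm 2 M, mul_assoc, Nat.mul_min_mul_left] at h
    have h' := Nat.le_of_mul_le_mul_left h hM
    rw [mul_add, mul_one, pow_succ]
    rcases le_total (2 * cut M s (M * i)) (s + 1) with h2 | h2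
    · rw [min_eq_left h2] at h'
      rcases le_total (2 ^ i) (s + 1) with h3 | h3
      · rw [min_eq_left h3] at ih
        exact (min_le_left _ _).trans (by omega)
      · rw [min_eq_right h3] at ih
        exact (min_le_right _ _).trans (by omega)
    · rw [min_eq_right h2] at h'
      exact (min_le_right _ _).trans h'

/-- **`M (log₂ s + 1)` cuts reach `s + 1`.** -/
theorem cut_last {M : ℕ} (hM : 0 < M) (s : ℕ) : cut M s (M * (Nat.log 2 s + 1)) = s + 1 := by
  refine le_antisymm (cut_le M s _) ?_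
  have := min_two_pow_le_cut hM s (Nat.log 2 s + 1)
  rwa [min_eq_right (Nat.lt_pow_succ_log_self one_lt_two s)] at this

variable {p : ℕ} [Fact p.Prime]

/-- The solutions with `u ∈ I` under the hyperbola. -/
def hyperCount (c : ZMod p) (x : ℕ) (I : Finset ℕ) : ℕ :=
  ∑ u ∈ I, ((Icc 1 (x / u)).filter fun v : ℕ => (u : ZMod p) * (v : ZMod p) = c).card

/-- An interval lies between two boxes. -/
theorem hyperCount_bounds (c : ZMod p) {x U : ℕ} (U' : ℕ) (hU : 1 ≤ U) :
    pairCount c (Ico U U') (Icc 1 (x / (U' - 1))) ≤ hyperCount c x (Ico U U') ∧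
      hyperCount c x (Ico U U') ≤ pairCount c (Ico U U') (Icc 1 (x / (U' - 1))) +
        pairCount c (Ico U U') (Ioc (x / (U' - 1)) (x / U)) := by
  rw [hyperCount, pairCount_eq_sum, pairCount_eq_sum, ← sum_add_distrib]
  constructor <;> refine sum_le_sum fun u hu => ?_ <;> rw [mem_Ico] at hu
  · refine card_le_card (filter_subset_filter _ (Icc_subset_Icc_right ?_))
    exact Nat.div_le_div_left (by omega) (by omega)
  · refine (card_le_card ?_).trans (card_union_le _ _)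
    rw [← filter_union]
    refine filter_subset_filter _ fun v hv => ?_
    have h1 : x / u ≤ x / U := Nat.div_le_div_left hu.1 (by omega)
    rw [mem_Icc] at hv
    rw [mem_union, mem_Icc, mem_Ioc]
    omega

/-- **An interval of ratio `1 + 1/M`.** -/
theorem hyperCount_sub_le (hp : p ≠ 2) {c c' : ZMod p} (hc : c ≠ 0) (hc' : c' ≠ 0)
    {x M U U' : ℕ} (hU : 1 ≤ U) (hUU : U ≤ U') (hUM : U' ≤ U + U / M + 1) (hM : 0 < M)
    (hUx : U * U ≤ x) :
    (hyperCount c x (Ico U U') : ℝ) - hyperCount c' x (Ico U U') ≤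
      2 * boxErr p + 4 * (x : ℝ) / (((p : ℝ) - 1) * (M : ℝ) ^ 2) := by
  have hp1 : (0 : ℝ) < (p : ℝ) - 1 := by
    have : (2 : ℝ) ≤ p := by exact_mod_cast (Fact.out : p.Prime).two_le
    linarith
  rcases eq_or_lt_of_le hUU with rfl | hlt
  · rw [hyperCount, hyperCount, Ico_self, sum_empty, sum_empty, Nat.cast_zero, sub_zero]
    exact add_nonneg (mul_nonneg two_pos.le (boxErr_nonneg p)) (by positivity)
  obtain ⟨V, hV⟩ : ∃ V, V = x / (U' - 1) := ⟨_, rfl⟩
  obtain ⟨w, rfl⟩ : ∃ w, U' = U + w := ⟨U' - U, by omega⟩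
  have hVW : V ≤ x / U := hV ▸ Nat.div_le_div_left (by omega) (by omega)
  obtain ⟨D, hD⟩ : ∃ D, x / U = V + D := ⟨x / U - V, by omega⟩
  have h1 := (Nat.cast_le (α := ℝ)).2 (hyperCount_bounds c (x := x) (U + w) hU).2
  have h2 := (Nat.cast_le (α := ℝ)).2 (hyperCount_bounds c' (x := x) (U + w) hU).1
  rw [← hV] at h1 h2
  rw [hD] at h1
  push_cast at h1
  have eI : Icc 1 V = Ico 1 (1 + V) := by
    ext
    simp only [mem_Icc, mem_Ico]
    omega
  have eJ : Ioc V (V + D) = Ico (V + 1) (V + 1 + D) := by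
    ext
    simp only [mem_Ioc, mem_Ico]
    omega
  have h3 := (abs_le.1 (abs_pairCount_sub_le hp hc hc' U w 1 V)).2
  have h4 := pairCount_le hp hc U w (V + 1) D
  rw [← eI] at h3
  rw [← eJ] at h4
  -- the area of the shell
  have harea : (w : ℝ) * D ≤ 4 * x / (M : ℝ) ^ 2 := by
    rcases (show w = 1 ∨ 2 ≤ w by omega) with rfl | hw
    · obtain rfl : D = 0 := by
        rw [hV, Nat.add_sub_cancel] at hD
        omega
      simp only [Nat.cast_zero, mul_zero]
      positivity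
    have hdiv : 1 ≤ U / M := by omega
    have hMU : M ≤ U := le_of_not_gt fun h => by rw [Nat.div_eq_of_lt h] at hdiv; omega
    have hU0 : (0 : ℝ) < U := Nat.cast_pos.2 (by omega)
    have hM0 : (0 : ℝ) < M := Nat.cast_pos.2 hM
    have hw1 : ((w : ℝ) - 1) * M ≤ U := by
      rw [← Nat.cast_one, ← Nat.cast_sub (by omega : 1 ≤ w), ← Nat.cast_mul, Nat.cast_le]
      exact le_trans (Nat.mul_le_mul_right M (by omega : w - 1 ≤ U / M)) (Nat.div_mul_le_self U M)
    have hV1 : (x : ℝ) < ((V : ℝ) + 1) * ((U : ℝ) + w - 1) := by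
      have := Nat.lt_div_mul_add (a := x) (b := U + w - 1) (by omega)
      rw [← hV] at this
      have : (x : ℝ) < ((V * (U + w - 1) + (U + w - 1) : ℕ) : ℝ) := Nat.cast_lt.2 this
      rw [Nat.cast_add, Nat.cast_mul, Nat.cast_sub (by omega : 1 ≤ U + w)] at this
      push_cast at this
      linarith
    have hW : ((V : ℝ) + D) * U ≤ x := by
      rw [← Nat.cast_add, ← hD, ← Nat.cast_mul, Nat.cast_le]
      exact Nat.div_mul_le_self x U
    have hw2 : (w : ℝ) * M ≤ 2 * U := by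
      have hwR : (2 : ℝ) ≤ w := by exact_mod_cast hw
      nlinarith
    have hxU : (U : ℝ) * U ≤ x := by exact_mod_cast hUx
    have hMU' : (M : ℝ) ≤ U := Nat.cast_le.2 hMU
    have hwR : (2 : ℝ) ≤ w := by exact_mod_cast hw
    -- `D ≤ 2 x / (M U)`
    have hVU : (V : ℝ) * U ≤ x := by nlinarith [Nat.cast_nonneg (α := ℝ) D]
    have hD2 : (D : ℝ) * U * M ≤ 2 * x := by
      have a1 : (D : ℝ) * U ≤ (V + 1) * ((w : ℝ) - 1) + U := by linarith
      have a2 : ((V : ℝ) + 1) * ((w : ℝ) - 1) * M ≤ (V + 1) * U := by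
        rw [mul_assoc]
        exact mul_le_mul_of_nonneg_left hw1 (by positivity)
      rcases Nat.eq_zero_or_pos D with rfl | hD0
      · simp only [Nat.cast_zero, zero_mul]
        positivity
      have hD1 : (1 : ℝ) ≤ D := Nat.one_le_cast.2 hD0
      have a3 : ((V : ℝ) + 1) * U ≤ x := by nlinarith
      have a4 : (U : ℝ) * M ≤ x := (mul_le_mul_of_nonneg_left hMU' hU0.le).trans hxU
      nlinarith [mul_le_mul_of_nonneg_right a1 hM0.le]
    rw [le_div_iff₀ (by positivity)]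
    have h5 := mul_le_mul hw2 hD2 (by positivity) (by linarith)
    nlinarith [mul_pos hU0 hU0]
  have h6 : (w : ℝ) * D / ((p : ℝ) - 1) ≤ 4 * (x : ℝ) / (((p : ℝ) - 1) * (M : ℝ) ^ 2) := by
    rw [mul_comm ((p : ℝ) - 1), ← div_div]
    exact div_le_div_of_nonneg_right harea hp1.le
  linarith

theorem hyperCount_Icc (c : ZMod p) {M : ℕ} (hM : 0 < M) (x s : ℕ) :
    hyperCount c x (Icc 1 s) = ∑ k ∈ range (M * (Nat.log 2 s + 1)),
      hyperCount c x (Ico (cut M s k) (cut M s (k + 1))) := by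
  have h : ∀ n, hyperCount c x (Ico 1 (cut M s n)) = ∑ k ∈ range n,
      hyperCount c x (Ico (cut M s k) (cut M s (k + 1))) := fun n => by
    induction n with
    | zero => simp [hyperCount, cut]
    | succ n ih =>
      rw [sum_range_succ, ← ih, hyperCount, hyperCount, hyperCount,
        sum_Ico_consecutive _ (one_le_cut M s n) (cut_le_succ M s n)]
  rw [← h, cut_last hM]
  rfl

/-- The divisor pairs up to `x` in the class `c`. -/
def classCount (c : ZMod p) (x : ℕ) : ℕ :=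
  ((Icc 1 x ×ˢ Icc 1 x).filter fun z : ℕ × ℕ =>
    z.1 * z.2 ≤ x ∧ ((z.1 * z.2 : ℕ) : ZMod p) = c).card

/-- **The hyperbola method.** -/
theorem classCount_add (c : ZMod p) (x : ℕ) :
    classCount c x + pairCount c (Icc 1 (Nat.sqrt x)) (Icc 1 (Nat.sqrt x)) =
      2 * hyperCount c x (Icc 1 (Nat.sqrt x)) := by
  obtain ⟨s, hs⟩ : ∃ s, s = Nat.sqrt x := ⟨_, rfl⟩
  rw [← hs, classCount]
  have hA : ((Icc 1 s ×ˢ Icc 1 x).filter (fun z : ℕ × ℕ => z.1 * z.2 ≤ x ∧
      ((z.1 * z.2 : ℕ) : ZMod p) = c)).card = hyperCount c x (Icc 1 s) := by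
    rw [hyperCount, card_filter, sum_product]
    refine sum_congr rfl fun u hu => ?_
    rw [card_filter]
    have hu0 : 0 < u := (mem_Icc.1 hu).1
    refine (sum_subset (Icc_subset_Icc_right (Nat.div_le_self x u)) fun v hv hv' => ?_).symm.trans
      (sum_congr rfl fun v hv => ?_)
    · refine if_neg fun h => hv' (mem_Icc.2 ⟨(mem_Icc.1 hv).1, ?_⟩)
      rw [Nat.le_div_iff_mul_le hu0, mul_comm]
      exact h.1
    · refine if_congr ?_ rfl rfl
      simp only [Nat.cast_mul, and_iff_right_iff_imp]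
      intro _
      rw [mul_comm, ← Nat.le_div_iff_mul_le hu0]
      exact (mem_Icc.1 hv).2
  have hB : ((Icc 1 x ×ˢ Icc 1 s).filter (fun z : ℕ × ℕ => z.1 * z.2 ≤ x ∧
      ((z.1 * z.2 : ℕ) : ZMod p) = c)).card = hyperCount c x (Icc 1 s) := by
    rw [← hA]
    refine card_nbij' Prod.swap Prod.swap ?_ ?_ (fun _ _ => rfl) fun _ _ => rfl
    all_goals
      intro z hz
      simp only [mem_coe, mem_filter, mem_product, Prod.fst_swap, Prod.snd_swap] at hz ⊢
      exact ⟨⟨hz.1.2, hz.1.1⟩, by rw [mul_comm]; exact hz.2.1, by rw [mul_comm]; exact hz.2.2⟩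
  have hsx : s ≤ x := hs ▸ Nat.sqrt_le_self x
  have hunion : (Icc 1 x ×ˢ Icc 1 x).filter (fun z : ℕ × ℕ => z.1 * z.2 ≤ x ∧
      ((z.1 * z.2 : ℕ) : ZMod p) = c) =
      (Icc 1 s ×ˢ Icc 1 x).filter (fun z : ℕ × ℕ => z.1 * z.2 ≤ x ∧
      ((z.1 * z.2 : ℕ) : ZMod p) = c) ∪
      (Icc 1 x ×ˢ Icc 1 s).filter (fun z : ℕ × ℕ => z.1 * z.2 ≤ x ∧
      ((z.1 * z.2 : ℕ) : ZMod p) = c) := by
    ext z
    simp only [mem_union, mem_filter, mem_product, mem_Icc]
    constructor
    · rintro ⟨⟨⟨h1, h1'⟩, h2, h2'⟩, hle, hz⟩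
      by_cases h : z.1 ≤ s
      · exact Or.inl ⟨⟨⟨h1, h⟩, h2, h2'⟩, hle, hz⟩
      · refine Or.inr ⟨⟨⟨h1, h1'⟩, h2, ?_⟩, hle, hz⟩
        by_contra h'
        have := Nat.lt_succ_sqrt x
        rw [← hs, Nat.succ_eq_add_one] at this
        have := Nat.mul_le_mul (show s + 1 ≤ z.1 by omega) (show s + 1 ≤ z.2 by omega)
        omega
    · rintro (⟨⟨⟨h1, h1'⟩, h2⟩, h⟩ | ⟨⟨h1, h2, h2'⟩, h⟩)
      · exact ⟨⟨⟨h1, h1'.trans hsx⟩, h2⟩, h⟩
      · exact ⟨⟨h1, h2, h2'.trans hsx⟩, h⟩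
  have hinter : (Icc 1 s ×ˢ Icc 1 x).filter (fun z : ℕ × ℕ => z.1 * z.2 ≤ x ∧
      ((z.1 * z.2 : ℕ) : ZMod p) = c) ∩
      (Icc 1 x ×ˢ Icc 1 s).filter (fun z : ℕ × ℕ => z.1 * z.2 ≤ x ∧
      ((z.1 * z.2 : ℕ) : ZMod p) = c) =
      (Icc 1 s ×ˢ Icc 1 s).filter fun z : ℕ × ℕ => ((z.1 * z.2 : ℕ) : ZMod p) = c := by
    ext z
    simp only [mem_inter, mem_filter, mem_product, mem_Icc]
    constructor
    · rintro ⟨⟨⟨h1, -⟩, -, hz⟩, ⟨-, h2⟩, -⟩
      exact ⟨⟨h1, h2⟩, hz⟩
    · rintro ⟨⟨h1, h2⟩, hz⟩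
      have hle : z.1 * z.2 ≤ x :=
        (Nat.mul_le_mul h1.2 h2.2).trans (hs ▸ Nat.sqrt_le x)
      exact ⟨⟨⟨h1, h2.1, h2.2.trans hsx⟩, hle, hz⟩, ⟨⟨h1.1, h1.2.trans hsx⟩, h2⟩, hle, hz⟩
  have h := card_union_add_card_inter ((Icc 1 s ×ˢ Icc 1 x).filter (fun z : ℕ × ℕ => z.1 * z.2 ≤ x ∧
      ((z.1 * z.2 : ℕ) : ZMod p) = c))
    ((Icc 1 x ×ˢ Icc 1 s).filter (fun z : ℕ × ℕ => z.1 * z.2 ≤ x ∧
      ((z.1 * z.2 : ℕ) : ZMod p) = c))
  rw [← hunion, hinter, hA, hB, ← two_mul] at h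
  exact h

/-- **Two classes differ by little**, at every ratio `1 + 1/M`. -/
theorem classCount_sub_le (hp : p ≠ 2) {c c' : ZMod p} (hc : c ≠ 0) (hc' : c' ≠ 0) {M : ℕ}
    (hM : 0 < M) (x : ℕ) :
    (classCount c x : ℝ) - classCount c' x ≤
      2 * ((M * (Nat.log 2 (Nat.sqrt x) + 1) : ℕ) : ℝ) *
        (2 * boxErr p + 4 * (x : ℝ) / (((p : ℝ) - 1) * (M : ℝ) ^ 2)) + boxErr p := by
  obtain ⟨s, hs⟩ : ∃ s, s = Nat.sqrt x := ⟨_, rfl⟩
  have e := congrArg (Nat.cast (R := ℝ)) (classCount_add c x)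
  have e' := congrArg (Nat.cast (R := ℝ)) (classCount_add c' x)
  rw [← hs] at e e' ⊢
  push_cast at e e'
  have hB : (pairCount c' (Icc 1 s) (Icc 1 s) : ℝ) - pairCount c (Icc 1 s) (Icc 1 s) ≤
      boxErr p := by
    rw [show Icc 1 s = Ico 1 (1 + s) by ext; simp only [mem_Icc, mem_Ico]; omega]
    exact (abs_le.1 (abs_pairCount_sub_le hp hc' hc 1 s 1 s)).2
  have hH : (hyperCount c x (Icc 1 s) : ℝ) - hyperCount c' x (Icc 1 s) ≤
      ((M * (Nat.log 2 s + 1) : ℕ) : ℝ) *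
        (2 * boxErr p + 4 * (x : ℝ) / (((p : ℝ) - 1) * (M : ℝ) ^ 2)) := by
    rw [hyperCount_Icc c hM, hyperCount_Icc c' hM, Nat.cast_sum, Nat.cast_sum, ← sum_sub_distrib,
      ← nsmul_eq_mul]
    refine (sum_le_card_nsmul _ _ _ fun k _ => ?_).trans_eq (by rw [card_range])
    rcases eq_or_lt_of_le (cut_le M s k) with h | h
    · rw [le_antisymm (cut_le M s (k + 1)) (h ▸ cut_le_succ M s k), h, hyperCount, hyperCount,
        Ico_self, sum_empty, sum_empty, Nat.cast_zero, sub_zero]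
      have : (2 : ℝ) ≤ p := by exact_mod_cast (Fact.out : p.Prime).two_le
      have : (0 : ℝ) < (p : ℝ) - 1 := by linarith
      exact add_nonneg (mul_nonneg two_pos.le (boxErr_nonneg p)) (by positivity)
    · refine hyperCount_sub_le hp hc hc' (one_le_cut M s k) (cut_le_succ M s k) (min_le_left _ _)
        hM ?_
      exact (Nat.mul_le_mul (show cut M s k ≤ s by omega) (show cut M s k ≤ s by omega)).trans
        (hs ▸ Nat.sqrt_le x)
  linarith

end FA.DivisorLevel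

end
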