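import Fermat.Agent.DivisorLevel.Hyperbola
import Mathlib.NumberTheory.Harmonic.Bounds
import Mathlib.Analysis.SpecialFunctions.Pow.Asymptotics

/-!
# The divisor function in progressions

Over the `c ≠ 0` the class counts add up to the divisor sum prime to `p`, which is
`(1 - 1/p) ^ 2 x log x + O (x)`; the choice `M = ⌈√x / p ^ (3/4)⌉` gives level `2/3`.
-/

set_option autoImplicit false

noncomputable section

namespace FA.DivisorLevel

open Finset Filter
open scoped Topology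

/-- The divisor sum prime to `p`. -/
def coprimeSum (p x : ℕ) : ℕ :=
  ∑ n ∈ (Icc 1 x).filter (fun n => ¬ p ∣ n), n.divisors.card

theorem card_pairs_eq (n x : ℕ) (hn : n ≤ x) :
    ((Icc 1 x ×ˢ Icc 1 x).filter fun z : ℕ × ℕ => z.1 * z.2 = n).card =
      if n = 0 then 0 else n.divisors.card := by
  split_ifs with h0
  · rw [card_eq_zero, filter_eq_empty_iff]
    intro z hz e
    rw [mem_product, mem_Icc, mem_Icc] at hz
    rcases mul_eq_zero.1 (e.trans h0) with h | h <;> omega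
  · refine card_nbij' Prod.fst (fun d => (d, n / d)) ?_ ?_ ?_ ?_
    · intro z hz
      simp only [mem_coe, mem_filter, mem_product, Nat.mem_divisors] at hz ⊢
      exact ⟨hz.2 ▸ dvd_mul_right z.1 z.2, h0⟩
    · intro d hd
      simp only [mem_coe, mem_filter, mem_product, mem_Icc, Nat.mem_divisors] at hd ⊢
      have hd0 : 0 < d := Nat.pos_of_dvd_of_pos hd.1 (by omega)
      have hle := Nat.le_of_dvd (by omega) hd.1
      exact ⟨⟨⟨hd0, by omega⟩, Nat.div_pos hle hd0, (Nat.div_le_self n d).trans hn⟩,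
        Nat.mul_div_cancel' hd.1⟩
    · intro z hz
      simp only [mem_coe, mem_filter, mem_product, mem_Icc] at hz
      exact Prod.ext rfl (show n / z.1 = z.2 by rw [← hz.2, Nat.mul_div_cancel_left _ hz.1.1.1])
    · intro d _
      rfl

/-- The pairs under the hyperbola with a property of the product. -/
theorem card_hyperbola_filter (Q : ℕ → Prop) [DecidablePred Q] (x : ℕ) :
    ((Icc 1 x ×ˢ Icc 1 x).filter fun z : ℕ × ℕ => z.1 * z.2 ≤ x ∧ Q (z.1 * z.2)).card =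
      ∑ n ∈ (Icc 1 x).filter Q, n.divisors.card := by
  rw [card_eq_sum_card_fiberwise (f := fun z : ℕ × ℕ => z.1 * z.2) (t := (Icc 1 x).filter Q)]
  · refine sum_congr rfl fun n hn => ?_
    rw [mem_filter, mem_Icc] at hn
    have h := card_pairs_eq n x hn.1.2
    rw [if_neg (by omega : n ≠ 0)] at h
    rw [← h, filter_filter]
    refine congrArg Finset.card (filter_congr fun z _ => ?_)
    exact ⟨fun h' => h'.2, fun h' => ⟨⟨h' ▸ hn.1.2, h'.symm ▸ hn.2⟩, h'⟩⟩
  · intro z hz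
    simp only [mem_coe, mem_filter, mem_product, mem_Icc] at hz ⊢
    exact ⟨⟨Nat.mul_pos hz.1.1.1 hz.1.2.1, hz.2.1⟩, hz.2.2⟩

variable {p : ℕ} [Fact p.Prime]

theorem classCount_eq (c : ZMod p) (x : ℕ) :
    classCount c x = ∑ n ∈ (Icc 1 x).filter (fun n : ℕ => (n : ZMod p) = c), n.divisors.card :=
  card_hyperbola_filter (fun n : ℕ => (n : ZMod p) = c) x

theorem sum_classCount (x : ℕ) :
    ∑ c ∈ (univ : Finset (ZMod p)).erase 0, classCount c x = coprimeSum p x := by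
  simp only [classCount_eq, coprimeSum]
  rw [sum_fiberwise_eq_sum_filter (Icc 1 x) ((univ : Finset (ZMod p)).erase 0)
    (fun n : ℕ => (n : ZMod p)) fun n => n.divisors.card]
  exact sum_congr (filter_congr fun n _ => by simp [ZMod.natCast_eq_zero_iff]) fun _ _ => rfl

/-- **The theorem of Selberg and Hooley** at a prime modulus. -/
theorem abs_classCount_sub_le (hp : p ≠ 2) {c : ZMod p} (hc : c ≠ 0) {x : ℕ} (hx : 1 ≤ x) :
    |(classCount c x : ℝ) - (coprimeSum p x : ℝ) / ((p : ℝ) - 1)| ≤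
      300 * (Real.sqrt x * (p : ℝ) ^ (-(1 / 4) : ℝ) + Real.sqrt p) *
        (1 + Real.log p) ^ 2 * (1 + Real.log x) := by
  have hp2 : (2 : ℝ) ≤ p := by exact_mod_cast (Fact.out : p.Prime).two_le
  have hp0 : (0 : ℝ) < p := by linarith
  have hp1 : (0 : ℝ) < (p : ℝ) - 1 := by linarith
  have hx0 : (0 : ℝ) < x := Nat.cast_pos.2 hx
  obtain ⟨q, hq⟩ : ∃ q : ℝ, q = Real.sqrt x / (p : ℝ) ^ (3 / 4 : ℝ) := ⟨_, rfl⟩
  have hq0 : 0 < q := hq ▸ div_pos (Real.sqrt_pos.2 hx0) (Real.rpow_pos_of_pos hp0 _)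
  obtain ⟨M, hM⟩ : ∃ M, M = ⌈q⌉₊ := ⟨_, rfl⟩
  have hM0 : 0 < M := hM ▸ Nat.ceil_pos.2 hq0
  have hMq : q ≤ M := hM ▸ Nat.le_ceil q
  have hMq' : (M : ℝ) ≤ q + 1 := hM ▸ (Nat.ceil_lt_add_one hq0.le).le
  obtain ⟨R, hR⟩ : ∃ R, R = Real.sqrt p * (1 + Real.log p) ^ 2 := ⟨_, rfl⟩
  have hlp : 0 ≤ Real.log p := Real.log_natCast_nonneg p
  have hlx : 0 ≤ Real.log x := Real.log_natCast_nonneg x
  have hsp : 0 ≤ Real.sqrt (p : ℝ) := Real.sqrt_nonneg _
  have hR0 : Real.sqrt p ≤ R := hR ▸ le_mul_of_one_le_right hsp (one_le_pow₀ (by linarith))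
  -- the area term
  have hA : 4 * (x : ℝ) / (((p : ℝ) - 1) * (M : ℝ) ^ 2) ≤ 8 * Real.sqrt p := by
    have e : (q : ℝ) ^ 2 * ((p : ℝ) * Real.sqrt p) = x := by
      rw [hq, div_pow, Real.sq_sqrt hx0.le, Real.sqrt_eq_rpow, ← Real.rpow_natCast _ 2,
        ← Real.rpow_mul hp0.le, show ((p : ℝ) * (p : ℝ) ^ (1 / 2 : ℝ)) = (p : ℝ) ^ (3 / 2 : ℝ) by
          rw [← Real.rpow_one_add' hp0.le (by norm_num)]
          norm_num]
      norm_num
      rw [div_mul_cancel₀ _ (Real.rpow_pos_of_pos hp0 _).ne']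
    have hM2 : q ^ 2 ≤ (M : ℝ) ^ 2 := pow_le_pow_left₀ hq0.le hMq 2
    rw [div_le_iff₀ (by positivity), ← e]
    nlinarith [mul_le_mul_of_nonneg_left hM2 (mul_nonneg hp0.le hsp),
      mul_nonneg (mul_nonneg (sub_nonneg.2 hp2) hsp) (sq_nonneg (M : ℝ))]
  -- the number of intervals
  have hK : ((M * (Nat.log 2 (Nat.sqrt x) + 1) : ℕ) : ℝ) ≤ (q + 1) * (2 * (1 + Real.log x)) := by
    rw [Nat.cast_mul, Nat.cast_add, Nat.cast_one]
    refine mul_le_mul hMq' ?_ (by positivity) (by linarith)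
    have h1 : ((Nat.log 2 (Nat.sqrt x) : ℕ) : ℝ) * Real.log 2 ≤ Real.log x := by
      rw [← Real.log_pow]
      refine Real.log_le_log (by positivity) ?_
      exact_mod_cast (Nat.pow_log_le_self 2 (by
        have := Nat.le_sqrt.2 (show 1 * 1 ≤ x by omega)
        omega)).trans (Nat.sqrt_le_self x)
    nlinarith [Real.log_two_gt_d9, Nat.cast_nonneg (α := ℝ) (Nat.log 2 (Nat.sqrt x))]
  have hbox : boxErr p = 8 * R := by rw [hR, boxErr]; ring
  have hdiff : ∀ d : ZMod p, d ≠ 0 → |(classCount c x : ℝ) - classCount d x| ≤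
      300 * (q + 1) * R * (1 + Real.log x) := fun d hd => by
    have hmax : 2 * ((M * (Nat.log 2 (Nat.sqrt x) + 1) : ℕ) : ℝ) *
        (2 * boxErr p + 4 * (x : ℝ) / (((p : ℝ) - 1) * (M : ℝ) ^ 2)) + boxErr p ≤
        300 * (q + 1) * R * (1 + Real.log x) := by
      rw [hbox]
      have hR' : 0 ≤ R := hsp.trans hR0
      have h1 : 2 * (8 * R) + 4 * (x : ℝ) / (((p : ℝ) - 1) * (M : ℝ) ^ 2) ≤ 24 * R := by linarith
      have h2 := mul_le_mul (mul_le_mul_of_nonneg_left hK two_pos.le) h1 (by positivity)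
        (by positivity)
      have h3 : R ≤ (q + 1) * R * (1 + Real.log x) := by
        nlinarith [mul_nonneg hq0.le hR', mul_nonneg (mul_nonneg hq0.le hR') hlx]
      nlinarith
    rw [abs_le]
    constructor
    · linarith [classCount_sub_le hp hd hc hM0 x]
    · linarith [classCount_sub_le hp hc hd hM0 x]
  have hE : 300 * (q + 1) * R * (1 + Real.log x) = 300 * (Real.sqrt x * (p : ℝ) ^ (-(1 / 4) : ℝ) +
      Real.sqrt p) * (1 + Real.log p) ^ 2 * (1 + Real.log x) := by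
    have e : q * Real.sqrt p = Real.sqrt x * (p : ℝ) ^ (-(1 / 4) : ℝ) := by
      rw [hq, Real.sqrt_eq_rpow (p : ℝ), div_mul_eq_mul_div, mul_div_assoc, ← Real.rpow_sub hp0]
      norm_num
    rw [hR, ← e]
    ring
  rw [← hE]
  obtain ⟨S, hS⟩ : ∃ S : Finset (ZMod p), S = univ.erase 0 := ⟨_, rfl⟩
  have hSc : (S.card : ℝ) = (p : ℝ) - 1 := by
    rw [hS, card_erase_of_mem (mem_univ _), card_univ, ZMod.card,
      Nat.cast_sub (Fact.out : p.Prime).one_le, Nat.cast_one]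
  have e2 : (classCount c x : ℝ) - (coprimeSum p x : ℝ) / ((p : ℝ) - 1) =
      (∑ d ∈ S, ((classCount c x : ℝ) - classCount d x)) / ((p : ℝ) - 1) := by
    rw [sum_sub_distrib, sum_const, nsmul_eq_mul, hSc, sub_div, mul_div_cancel_left₀ _ hp1.ne', hS,
      ← Nat.cast_sum, sum_classCount]
  rw [e2, abs_div, abs_of_pos hp1, div_le_iff₀ hp1]
  refine (abs_sum_le_sum_abs _ _).trans ((sum_le_card_nsmul _ _ _ fun d hd =>
    hdiff d (ne_of_mem_erase (hS ▸ hd : d ∈ univ.erase 0))).trans (le_of_eq ?_))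
  rw [nsmul_eq_mul, hSc]
  ring

/-! ### The main term -/

omit [Fact p.Prime] in
theorem card_not_dvd (n : ℕ) : (((Icc 1 n).filter fun v => ¬ p ∣ v).card : ℝ) =
    (n : ℝ) - ((n / p : ℕ) : ℝ) := by
  have h1 := card_filter_add_card_filter_not (fun v => p ∣ v) (s := Icc 1 n)
  have h2 : ((Icc 1 n).filter fun v => p ∣ v).card = n / p := by
    rw [show Icc 1 n = Ioc 0 n by ext; simp only [mem_Icc, mem_Ioc]; omega]
    exact Nat.Ioc_filter_dvd_card_eq_div n p
  rw [h2, Nat.card_Icc] at h1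
  rw [eq_sub_iff_add_eq, ← Nat.cast_add, Nat.cast_inj]
  omega

theorem abs_harmonic_sub_log (n : ℕ) : |(harmonic n : ℝ) - Real.log n| ≤ 1 := by
  rcases Nat.eq_zero_or_pos n with rfl | hn
  · simp
  have hlow := log_add_one_le_harmonic n
  have hup := harmonic_le_one_add_log n
  have := Real.log_le_log (Nat.cast_pos.2 hn) (Nat.cast_le.2 (Nat.le_succ n) :
    (n : ℝ) ≤ ((n + 1 : ℕ) : ℝ))
  rw [abs_le]
  constructor <;> linarith

theorem sum_inv_eq_harmonic (n : ℕ) : ∑ u ∈ Icc 1 n, (u : ℝ)⁻¹ = harmonic n := by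
  rw [harmonic_eq_sum_Icc, Rat.cast_sum]
  simp

theorem sum_inv_not_dvd (x : ℕ) :
    ∑ u ∈ (Icc 1 x).filter (fun u => ¬ p ∣ u), (u : ℝ)⁻¹ =
      (harmonic x : ℝ) - (harmonic (x / p) : ℝ) / p := by
  have hp0 : 0 < p := (Fact.out : p.Prime).pos
  rw [eq_sub_iff_add_eq, ← sum_inv_eq_harmonic x, ← sum_filter_add_sum_filter_not (Icc 1 x)
    (fun u => p ∣ u), add_comm]
  congr 1
  rw [← sum_inv_eq_harmonic, sum_div]
  refine sum_nbij' (fun k => p * k) (fun u => u / p) ?_ ?_ ?_ ?_ fun k _ => ?_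
  · intro k hk
    simp only [mem_filter, mem_Icc] at hk ⊢
    exact ⟨⟨Nat.mul_pos hp0 hk.1, by rw [mul_comm]; exact (Nat.le_div_iff_mul_le hp0).1 hk.2⟩,
      dvd_mul_right p k⟩
  · intro u hu
    simp only [mem_filter, mem_Icc] at hu ⊢
    exact ⟨Nat.div_pos (Nat.le_of_dvd hu.1.1 hu.2) hp0, Nat.div_le_div_right hu.1.2⟩
  · intro k _
    exact Nat.mul_div_cancel_left k hp0
  · intro u hu
    simp only [mem_filter] at hu
    exact Nat.mul_div_cancel' hu.2
  · rw [Nat.cast_mul, mul_inv, div_eq_mul_inv, mul_comm]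

/-- `∑_{n ≤ x, p ∤ n} d n = (1 - 1/p) ^ 2 x log x + O (x)`. -/
theorem abs_coprimeSum_sub_le {x : ℕ} (hpx : p ≤ x) :
    |(coprimeSum p x : ℝ) - (1 - 1 / (p : ℝ)) ^ 2 * ((x : ℝ) * Real.log x)| ≤ 6 * (x : ℝ) := by
  have hp0 : 0 < p := (Fact.out : p.Prime).pos
  have hpR : (2 : ℝ) ≤ p := by exact_mod_cast (Fact.out : p.Prime).two_le
  obtain ⟨T, hT⟩ : ∃ T, T = (Icc 1 x).filter fun u => ¬ p ∣ u := ⟨_, rfl⟩
  have e : (coprimeSum p x : ℝ) = ∑ u ∈ T,
      (((Icc 1 (x / u)).filter fun v => ¬ p ∣ v).card : ℝ) := by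
    rw [coprimeSum, ← card_hyperbola_filter (fun n => ¬ p ∣ n) x, card_filter, sum_product, hT,
      Nat.cast_sum, sum_filter]
    refine sum_congr rfl fun u hu => ?_
    have hu0 : 0 < u := (mem_Icc.1 hu).1
    split_ifs with hpu
    · rw [Nat.cast_eq_zero]
      refine sum_eq_zero fun v _ => if_neg fun h => h.2 (hpu.mul_right v)
    · rw [card_filter, Nat.cast_inj]
      refine (sum_subset (Icc_subset_Icc_right (Nat.div_le_self x u)) fun v hv hv' => ?_).symm.trans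
        (sum_congr rfl fun v hv => ?_)
      · refine if_neg fun h => hv' (mem_Icc.2 ⟨(mem_Icc.1 hv).1, ?_⟩)
        rw [Nat.le_div_iff_mul_le hu0, mul_comm]
        exact h.1
      · refine if_congr ?_ rfl rfl
        rw [(Fact.out : p.Prime).dvd_mul, not_or, and_iff_right hpu, and_iff_right_iff_imp]
        intro _
        rw [mul_comm, ← Nat.le_div_iff_mul_le hu0]
        exact (mem_Icc.1 hv).2
  have h1 : |(coprimeSum p x : ℝ) - (1 - 1 / (p : ℝ)) * x * ∑ u ∈ T, (u : ℝ)⁻¹| ≤ 2 * (x : ℝ) := by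
    rw [e, mul_sum, ← sum_sub_distrib]
    refine (abs_sum_le_sum_abs _ _).trans ((sum_le_card_nsmul _ _ 2 fun u hu => ?_).trans ?_)
    · rw [card_not_dvd]
      have hu0 : 0 < u := (mem_Icc.1 (mem_filter.1 (hT ▸ hu)).1).1
      have a1 := Nat.floor_div_eq_div (K := ℝ) x u
      have a2 := Nat.floor_div_eq_div (K := ℝ) (x / u) p
      have b1 := Nat.floor_le (div_nonneg (Nat.cast_nonneg (α := ℝ) x) (Nat.cast_nonneg u))
      have b1' := Nat.lt_floor_add_one ((x : ℝ) / u)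
      have b2 := Nat.floor_le (div_nonneg (Nat.cast_nonneg (α := ℝ) (x / u)) (Nat.cast_nonneg p))
      have b2' := Nat.lt_floor_add_one (((x / u : ℕ) : ℝ) / p)
      rw [a1] at b1 b1'
      rw [a2] at b2 b2'
      have c1 : ((x : ℝ) / u - 1) / p ≤ ((x / u : ℕ) : ℝ) / p :=
        div_le_div_of_nonneg_right (by linarith) (Nat.cast_nonneg p)
      have c2 : ((x / u : ℕ) : ℝ) / p ≤ (x : ℝ) / u / p :=
        div_le_div_of_nonneg_right b1 (Nat.cast_nonneg p)
      have c3 : (1 : ℝ) / p ≤ 1 := by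
        rw [div_le_one (by linarith)]
        linarith
      rw [sub_div] at c1
      rw [show (1 - 1 / (p : ℝ)) * x * (u : ℝ)⁻¹ = (x : ℝ) / u - (x : ℝ) / u / p by ring, abs_le]
      constructor <;> linarith
    · rw [nsmul_eq_mul, mul_comm]
      refine mul_le_mul_of_nonneg_left ?_ two_pos.le
      rw [hT]
      exact_mod_cast (card_filter_le _ _).trans (by rw [Nat.card_Icc]; omega)
  have h2 : |(∑ u ∈ T, (u : ℝ)⁻¹) - (1 - 1 / (p : ℝ)) * Real.log x| ≤ 4 := by
    rw [hT, sum_inv_not_dvd]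
    have hq : 1 ≤ x / p := Nat.div_pos hpx hp0
    have a1 := Nat.div_mul_le_self x p
    have a2 := Nat.lt_div_mul_add (a := x) hp0
    have l1 : Real.log (((x / p : ℕ) : ℝ) * p) ≤ Real.log x := Real.log_le_log
      (mul_pos (Nat.cast_pos.2 hq) (by linarith)) (by exact_mod_cast a1)
    have l2 : Real.log x ≤ Real.log (2 * (((x / p : ℕ) : ℝ) * p)) := by
      refine Real.log_le_log (Nat.cast_pos.2 (by omega)) ?_
      have : p ≤ x / p * p := Nat.le_mul_of_pos_left p hq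
      exact_mod_cast (show x ≤ 2 * (x / p * p) by omega)
    rw [Real.log_mul (Nat.cast_pos.2 hq).ne' (by linarith)] at l1
    rw [Real.log_mul two_ne_zero (mul_pos (Nat.cast_pos.2 hq) (by linarith)).ne',
      Real.log_mul (Nat.cast_pos.2 hq).ne' (by linarith)] at l2
    have hlp : Real.log p / p ≤ 1 := by
      rw [div_le_one (by linarith)]
      linarith [Real.log_le_sub_one_of_pos (show (0 : ℝ) < p by linarith)]
    have hlp0 : 0 ≤ Real.log p / p :=
      div_nonneg (Real.log_natCast_nonneg p) (Nat.cast_nonneg p)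
    have hh := abs_le.1 (abs_harmonic_sub_log x)
    have hh' := abs_le.1 (abs_harmonic_sub_log (x / p))
    have d1 : ((harmonic (x / p) : ℝ) - (Real.log x - Real.log p)) / p ≤ 1 := by
      rw [div_le_one (by linarith)]
      linarith
    have d2 : -2 ≤ ((harmonic (x / p) : ℝ) - (Real.log x - Real.log p)) / p := by
      rw [le_div_iff₀ (by linarith)]
      linarith [Real.log_le_sub_one_of_pos (two_pos : (0 : ℝ) < 2)]
    rw [show (harmonic x : ℝ) - (harmonic (x / p) : ℝ) / p - (1 - 1 / (p : ℝ)) * Real.log x =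
      ((harmonic x : ℝ) - Real.log x) - ((harmonic (x / p) : ℝ) - (Real.log x - Real.log p)) / p +
        Real.log p / p by ring, abs_le]
    constructor <;> linarith
  have hc : 0 ≤ (1 - 1 / (p : ℝ)) * x ∧ (1 - 1 / (p : ℝ)) * x ≤ x := by
    have h0 : (0 : ℝ) ≤ 1 / p := by positivity
    have h1 : (1 : ℝ) / p ≤ 1 := by rw [div_le_one (by linarith)]; linarith
    exact ⟨mul_nonneg (by linarith) (Nat.cast_nonneg x),
      mul_le_of_le_one_left (Nat.cast_nonneg x) (by linarith)⟩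
  have h3 : |(1 - 1 / (p : ℝ)) * x * (∑ u ∈ T, (u : ℝ)⁻¹) -
      (1 - 1 / (p : ℝ)) ^ 2 * ((x : ℝ) * Real.log x)| ≤ 4 * (x : ℝ) := by
    rw [show (1 - 1 / (p : ℝ)) ^ 2 * ((x : ℝ) * Real.log x) =
      (1 - 1 / (p : ℝ)) * x * ((1 - 1 / (p : ℝ)) * Real.log x) by ring, ← mul_sub, abs_mul,
      abs_of_nonneg hc.1, mul_comm (4 : ℝ)]
    exact mul_le_mul hc.2 h2 (abs_nonneg _) (Nat.cast_nonneg x)
  exact (abs_sub_le _ _ _).trans (by linarith)

omit [Fact p.Prime] in
/-- **Level `2/3`, with the main term**, uniformly. -/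
theorem eventually_class_asymptotic {δ η : ℝ} (hδ : 0 < δ) (hη : 0 < η) :
    ∀ᶠ x : ℕ in atTop, ∀ p : ℕ, (hp : p.Prime) → p ≠ 2 → (p : ℝ) ≤ (x : ℝ) ^ (2 / 3 - δ) →
      ∀ c : ZMod p, c ≠ 0 →
        haveI := Fact.mk hp
        |(classCount c x : ℝ) - (1 - 1 / (p : ℝ)) * ((x : ℝ) * Real.log x / p)| ≤
          η * ((x : ℝ) * Real.log x / p) := by
  obtain ⟨θ, hθ0, hθδ⟩ : ∃ θ : ℝ, 0 < θ ∧ θ ≤ 3 * δ / 4 ∧ θ ≤ 1 / 4 :=
    ⟨min (3 * δ / 4) (1 / 4), lt_min (by linarith) (by norm_num), min_le_left _ _, min_le_right _ _⟩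
  filter_upwards [eventually_ge_atTop 3,
    (Real.tendsto_log_atTop.comp tendsto_natCast_atTop_atTop).eventually_ge_atTop (24 / η),
    tendsto_natCast_atTop_atTop.eventually
      ((isLittleO_log_rpow_rpow_atTop (2 : ℕ) hθ0).bound
        (show (0 : ℝ) < η / (2 * 300 * 2 * 8) by positivity))] with x hx hlog hsmall
  intro p hp hp2 hpx c hc
  have := Fact.mk hp
  simp only [Function.comp_apply] at hlog
  simp only [Real.rpow_natCast, Real.norm_eq_abs] at hsmall
  have hx1 : (1 : ℝ) ≤ x := Nat.one_le_cast.2 (by omega)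
  have hx0 : (0 : ℝ) < x := by linarith
  have hp0 : (2 : ℝ) ≤ p := by exact_mod_cast hp.two_le
  have hpx' : p ≤ x := by
    have : (p : ℝ) ≤ x := hpx.trans
      ((Real.rpow_le_rpow_of_exponent_le hx1 (by linarith)).trans_eq (Real.rpow_one _))
    exact_mod_cast this
  obtain ⟨L, hL⟩ : ∃ L, L = Real.log (x : ℝ) := ⟨_, rfl⟩
  rw [← hL] at hlog hsmall ⊢
  have hL1 : 1 ≤ L := by
    rw [hL]
    refine (Real.le_log_iff_exp_le hx0).2 (Real.exp_one_lt_d9.le.trans ?_)
    have : (3 : ℝ) ≤ x := by exact_mod_cast hx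
    linarith
  rw [abs_of_nonneg (by positivity : (0 : ℝ) ≤ L ^ 2), abs_of_nonneg (by positivity)] at hsmall
  have hmain : |(coprimeSum p x : ℝ) / ((p : ℝ) - 1) -
      (1 - 1 / (p : ℝ)) * ((x : ℝ) * L / p)| ≤ η / 2 * ((x : ℝ) * L / p) := by
    have e : (1 - 1 / (p : ℝ)) * ((x : ℝ) * L / p) =
        (1 - 1 / (p : ℝ)) ^ 2 * ((x : ℝ) * L) / ((p : ℝ) - 1) := by
      have h1 : (p : ℝ) - 1 ≠ 0 := by linarith
      field_simp
    rw [e, ← sub_div, abs_div, abs_of_pos (show (0 : ℝ) < (p : ℝ) - 1 by linarith),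
      div_le_iff₀ (by linarith)]
    refine (hL ▸ abs_coprimeSum_sub_le hpx').trans ?_
    have h12 : 24 ≤ η * L := by
      rw [div_le_iff₀ hη] at hlog
      linarith
    rw [show η / 2 * ((x : ℝ) * L / p) * ((p : ℝ) - 1) =
      η * L * x * (((p : ℝ) - 1) / p) / 2 by ring]
    have hhalf : (1 : ℝ) / 2 ≤ ((p : ℝ) - 1) / p := by
      rw [div_le_div_iff₀ two_pos (by linarith)]
      linarith
    have := mul_le_mul (mul_le_mul_of_nonneg_right h12 hx0.le) hhalf (by norm_num)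
      (mul_nonneg (mul_nonneg hη.le (by linarith)) hx0.le)
    linarith
  have herr : 300 * (Real.sqrt x * (p : ℝ) ^ (-(1 / 4) : ℝ) + Real.sqrt p) *
      (1 + Real.log p) ^ 2 * (1 + L) ≤ η / 2 * ((x : ℝ) * L / p) := by
    have hp' : (0 : ℝ) < p := by linarith
    have hb : Real.sqrt x * (p : ℝ) ^ (-(1 / 4) : ℝ) + Real.sqrt p ≤
        2 * ((x : ℝ) ^ (1 - θ) / p) := by
      have a1 : Real.sqrt x * (p : ℝ) ^ (-(1 / 4) : ℝ) * p ≤ (x : ℝ) ^ (1 - θ) := by
        rw [mul_assoc, ← Real.rpow_add_one' hp'.le (by norm_num), Real.sqrt_eq_rpow]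
        refine (mul_le_mul_of_nonneg_left (Real.rpow_le_rpow hp'.le hpx (by norm_num))
          (by positivity)).trans ?_
        rw [← Real.rpow_mul hx0.le, ← Real.rpow_add hx0]
        exact Real.rpow_le_rpow_of_exponent_le hx1 (by linarith [hθδ.1])
      have a2 : Real.sqrt p * p ≤ (x : ℝ) ^ (1 - θ) := by
        rw [Real.sqrt_eq_rpow, ← Real.rpow_add_one' hp'.le (by norm_num)]
        refine (Real.rpow_le_rpow hp'.le hpx (by norm_num)).trans ?_
        rw [← Real.rpow_mul hx0.le]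
        exact Real.rpow_le_rpow_of_exponent_le hx1 (by linarith [hθδ.1])
      rw [mul_div_assoc', le_div_iff₀ hp']
      linarith
    have hlp : 1 + Real.log p ≤ 2 * L := by
      have := Real.log_le_log hp' (Nat.cast_le.2 hpx' : (p : ℝ) ≤ x)
      linarith
    have hlp0 : 0 ≤ 1 + Real.log p := by linarith [Real.log_natCast_nonneg p]
    refine (mul_le_mul (mul_le_mul (mul_le_mul_of_nonneg_left hb (by norm_num))
      (pow_le_pow_left₀ hlp0 hlp 2) (by positivity) (by positivity))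
      (show 1 + L ≤ 2 * L by linarith) (by linarith) (by positivity)).trans ?_
    rw [show η / 2 * ((x : ℝ) * L / p) = η / 2 * L * ((x : ℝ) ^ (1 - θ) / p) * (x : ℝ) ^ θ by
      rw [mul_assoc _ ((x : ℝ) ^ (1 - θ) / p), div_mul_eq_mul_div ((x : ℝ) ^ (1 - θ)),
        ← Real.rpow_add hx0,
        show 1 - θ + θ = 1 by ring, Real.rpow_one]
      ring]
    have := mul_le_mul_of_nonneg_left hsmall
      (show 0 ≤ 300 * 2 * 8 * L * ((x : ℝ) ^ (1 - θ) / p) by positivity)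
    refine le_trans (le_of_eq ?_) (this.trans (le_of_eq ?_))
    · ring
    · ring
  have h := abs_classCount_sub_le hp2 hc (x := x) (by omega)
  rw [← hL] at h
  exact (abs_sub_le _ _ _).trans ((add_le_add (h.trans herr) hmain).trans_eq (by ring))

end FA.DivisorLevel

end
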